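import Mathlib

/-!
Limits at infinity of periodic holomorphic functions on the upper half plane in terms of
`q`-expansions.
-/

set_option autoImplicit false

open UpperHalfPlane hiding I
open Complex Filter Function Topology
open scoped Real Manifold

namespace Fermat.Agent.S24.JFun

local notation "𝕢" => Periodic.qParam

theorem qParam_one_add_one (w : ℂ) : 𝕢 1 (w + 1) = 𝕢 1 w := by
  simp only [Periodic.qParam, ofReal_one, div_one]
  rw [mul_add, mul_one]
  exact Complex.exp_periodic _

/-- A function given by a convergent `q`-expansion is periodic. -/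
theorem periodic_of_hasSum {f : ℍ → ℂ} {c : ℕ → ℂ}
    (hf : ∀ τ : ℍ, HasSum (fun m => c m • 𝕢 1 τ ^ m) (f τ)) :
    Periodic (f ∘ ofComplex) 1 := by
  intro w
  by_cases hw : 0 < im w
  · have hw1 : 0 < im (w + 1) := by simpa using hw
    simp only [comp_apply, ofComplex_apply_of_im_pos hw1, ofComplex_apply_of_im_pos hw]
    have h1 := hf ⟨w + 1, hw1⟩
    have h2 := hf ⟨w, hw⟩
    rw [qParam_one_add_one] at h1
    exact h1.unique h2
  · have hw' : im w ≤ 0 := not_lt.mp hw
    have hw1 : im (w + 1) ≤ 0 := by simpa using hw'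
    simp only [comp_apply, ofComplex_apply_of_im_nonpos hw1, ofComplex_apply_of_im_nonpos hw']

/-- A periodic holomorphic function bounded at infinity tends to the value of its cusp function
at zero. -/
theorem tendsto_atImInfty_cuspFunction_zero {f : ℍ → ℂ} (hper : Periodic (f ∘ ofComplex) 1)
    (hhol : MDiff f) (hbdd : IsBoundedAtImInfty f) :
    Tendsto f atImInfty (𝓝 (cuspFunction 1 f 0)) := by
  have han : AnalyticAt ℂ (cuspFunction 1 f) 0 :=
    analyticAt_cuspFunction_zero one_pos hper hhol hbdd
  have hq : Tendsto (fun τ : ℍ => 𝕢 1 τ) atImInfty (𝓝 0) := qParam_tendsto_atImInfty one_pos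
  have h1 := han.continuousAt.tendsto.comp hq
  refine h1.congr fun τ => ?_
  simpa using eq_cuspFunction τ one_ne_zero hper

/-- A periodic holomorphic function bounded at infinity tends to its zeroth `q`-expansion
coefficient at infinity. -/
theorem tendsto_atImInfty_coeff_zero {f : ℍ → ℂ} (hper : Periodic (f ∘ ofComplex) 1)
    (hhol : MDiff f) (hbdd : IsBoundedAtImInfty f) :
    Tendsto f atImInfty (𝓝 ((qExpansion 1 f).coeff 0)) := by
  have h0 : (qExpansion 1 f).coeff 0 = cuspFunction 1 f 0 := by
    simp [qExpansion_coeff]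
  rw [h0]
  exact tendsto_atImInfty_cuspFunction_zero hper hhol hbdd

/-- A holomorphic function given by a convergent `q`-expansion tends to the zeroth coefficient
at infinity. -/
theorem tendsto_atImInfty_of_hasSum {f : ℍ → ℂ} {c : ℕ → ℂ} (hhol : MDiff f)
    (hf : ∀ τ : ℍ, HasSum (fun m => c m • 𝕢 1 τ ^ m) (f τ)) :
    Tendsto f atImInfty (𝓝 (c 0)) := by
  have hper := periodic_of_hasSum hf
  have hbdd : IsBoundedAtImInfty f := isBoundedAtImInfty_of_hasSum_qExpansion one_pos hf
  have han : AnalyticAt ℂ (cuspFunction 1 f) 0 :=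
    analyticAt_cuspFunction_zero one_pos hper hhol hbdd
  have H := hasFPowerSeriesOnBall_cuspFunction one_pos han hf
  have h0 : c 0 = cuspFunction 1 f 0 := by
    have := H.coeff_zero (fun _ => 0)
    simpa using this
  rw [h0]
  exact tendsto_atImInfty_cuspFunction_zero hper hhol hbdd

end Fermat.Agent.S24.JFun
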