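import Mathlib

/-!
Normalized derivative `D = (2 pi i)^{-1} d/dz` of periodic holomorphic functions bounded at
infinity: `D f` tends to zero at infinity.
-/

set_option autoImplicit false

open UpperHalfPlane hiding I
open Complex Filter Function Topology
open scoped Real Manifold

namespace Fermat.Agent.S24.JFun

open Derivative

local notation "𝕢" => Periodic.qParam

/-- Chain rule: the derivative of `f ∘ ofComplex` in terms of the cusp function. -/
theorem deriv_comp_ofComplex_eq {f : ℍ → ℂ} (hper : Periodic (f ∘ ofComplex) 1)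
    (hhol : MDiff f) (hbdd : IsBoundedAtImInfty f) (z : ℍ) :
    deriv (f ∘ ofComplex) (z : ℂ) =
      deriv (cuspFunction 1 f) (𝕢 1 z) * (2 * π * I * 𝕢 1 z) := by
  have hq : ‖𝕢 1 (z : ℂ)‖ < 1 := Periodic.norm_qParam_lt_one one_pos z.im_pos
  have hF : DifferentiableAt ℂ (cuspFunction 1 f) (𝕢 1 z) :=
    differentiableAt_cuspFunction one_pos hper hhol hbdd hq
  have hqd : HasDerivAt (𝕢 1) (2 * π * I * 𝕢 1 z) (z : ℂ) := by
    have h1 : HasDerivAt (fun w : ℂ => 2 * π * I * w / (1 : ℝ)) (2 * π * I) (z : ℂ) := by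
      simpa using ((hasDerivAt_id (z : ℂ)).const_mul (2 * π * I)).div_const ((1 : ℝ) : ℂ)
    have h2 := h1.cexp
    have h3 : (2 * π * I * 𝕢 1 (z : ℂ)) = cexp (2 * π * I * (z : ℂ) / (1 : ℝ)) * (2 * π * I) := by
      rw [mul_comm]; rfl
    rw [h3]
    exact h2
  have hcomp : HasDerivAt (cuspFunction 1 f ∘ 𝕢 1)
      (deriv (cuspFunction 1 f) (𝕢 1 z) * (2 * π * I * 𝕢 1 z)) (z : ℂ) :=
    hF.hasDerivAt.comp (z : ℂ) hqd
  have heq : (f ∘ ofComplex) = cuspFunction 1 f ∘ 𝕢 1 := by
    funext w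
    simp only [comp_apply]
    exact (Periodic.eq_cuspFunction one_ne_zero hper w).symm
  rw [heq]
  exact hcomp.deriv

/-- `D f = q * F'(q)` where `F` is the cusp function. -/
theorem normalizedDeriv_eq_qParam_mul {f : ℍ → ℂ} (hper : Periodic (f ∘ ofComplex) 1)
    (hhol : MDiff f) (hbdd : IsBoundedAtImInfty f) (z : ℍ) :
    D f z = 𝕢 1 z * deriv (cuspFunction 1 f) (𝕢 1 z) := by
  rw [normalizedDerivOfComplex, deriv_comp_ofComplex_eq hper hhol hbdd z]
  have : (2 * π * I : ℂ) ≠ 0 := two_pi_I_ne_zero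
  field_simp

/-- The normalized derivative of a periodic holomorphic function bounded at infinity tends to
zero at infinity. -/
theorem normalizedDeriv_isZeroAtImInfty {f : ℍ → ℂ} (hper : Periodic (f ∘ ofComplex) 1)
    (hhol : MDiff f) (hbdd : IsBoundedAtImInfty f) : IsZeroAtImInfty (D f) := by
  have han : AnalyticAt ℂ (cuspFunction 1 f) 0 :=
    analyticAt_cuspFunction_zero one_pos hper hhol hbdd
  have hcont : ContinuousAt (deriv (cuspFunction 1 f)) 0 := han.deriv.continuousAt
  have hq : Tendsto (fun τ : ℍ => 𝕢 1 τ) atImInfty (𝓝 0) := qParam_tendsto_atImInfty one_pos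
  have h1 : Tendsto (fun τ : ℍ => deriv (cuspFunction 1 f) (𝕢 1 τ)) atImInfty
      (𝓝 (deriv (cuspFunction 1 f) 0)) := hcont.tendsto.comp hq
  have h2 := hq.mul h1
  rw [zero_mul] at h2
  refine h2.congr fun τ => ?_
  exact (normalizedDeriv_eq_qParam_mul hper hhol hbdd τ).symm

end Fermat.Agent.S24.JFun
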