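import Mathlib
import Fermat.Agent.S24.JFun.NormDeriv

/-!
The Serre derivative of a level one modular form is a level one modular form.
-/

set_option autoImplicit false

open UpperHalfPlane hiding I
open Complex Filter Function Topology ModularForm EisensteinSeries
open SlashInvariantForm SlashInvariantFormClass ModularFormClass
open scoped Real Manifold MatrixGroups

namespace Fermat.Agent.S24.JFun

open Derivative

local notation "𝕢" => Periodic.qParam

variable {k : ℤ}

theorem levelOne_periodic (f : ModularForm 𝒮ℒ k) : Periodic ((f : ℍ → ℂ) ∘ ofComplex) 1 := by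
  have := SlashInvariantFormClass.periodic_comp_ofComplex (h := (1 : ℝ)) f one_mem_strictPeriods_SL
  simpa using this

theorem levelOne_isBoundedAtImInfty (f : ModularForm 𝒮ℒ k) : IsBoundedAtImInfty (f : ℍ → ℂ) :=
  ModularFormClass.bdd_at_infty f

theorem levelOne_slash_eq (f : ModularForm 𝒮ℒ k) (γ : SL(2, ℤ)) : (f : ℍ → ℂ) ∣[k] γ = f := by
  have hγ : (γ : GL (Fin 2) ℝ) ∈ 𝒮ℒ := ⟨γ, rfl⟩
  rw [SL_slash, slash_action_eqn _ _ hγ]

theorem serreDerivative_isBoundedAtImInfty (f : ModularForm 𝒮ℒ k) :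
    IsBoundedAtImInfty (serreDerivative (k : ℂ) (f : ℍ → ℂ)) := by
  have h1 : IsBoundedAtImInfty (D (f : ℍ → ℂ)) :=
    (normalizedDeriv_isZeroAtImInfty (levelOne_periodic f) (ModularFormClass.holo f)
      (levelOne_isBoundedAtImInfty f)).boundedAtFilter
  have h2 : IsBoundedAtImInfty (fun z : ℍ => (k : ℂ) * 12⁻¹ * E2 z * f z) := by
    have h3 : IsBoundedAtImInfty (fun _ : ℍ => (k : ℂ) * 12⁻¹) := const_boundedAtFilter _ _
    exact (h3.mul isBoundedAtImInfty_E2).mul (levelOne_isBoundedAtImInfty f)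
  exact h1.sub h2

/-- The Serre derivative of a level one modular form, as a modular form of weight `k + 2`. -/
noncomputable def serreMF (f : ModularForm 𝒮ℒ k) : ModularForm 𝒮ℒ (k + 2) where
  toFun := serreDerivative (k : ℂ) (f : ℍ → ℂ)
  slash_action_eq' := fun _ ⟨γ, hγ⟩ => hγ ▸ by
    have := serreDerivative_slash_invariant (k := k) (F := (f : ℍ → ℂ))
      (ModularFormClass.holo f) (γ := γ) (levelOne_slash_eq f γ)
    exact this
  holo' := serreDerivative_mdifferentiable (k : ℂ) (ModularFormClass.holo f)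
  bdd_at_cusps' {c} hc := by
    rw [Subgroup.IsArithmetic.isCusp_iff_isCusp_SL2Z] at hc
    rw [OnePoint.isBoundedAt_iff_forall_SL2Z hc]
    intro γ _
    have := serreDerivative_slash_invariant (k := k) (F := (f : ℍ → ℂ))
      (ModularFormClass.holo f) (γ := γ) (levelOne_slash_eq f γ)
    rw [this]
    exact serreDerivative_isBoundedAtImInfty f

@[simp]
theorem serreMF_apply (f : ModularForm 𝒮ℒ k) (z : ℍ) :
    serreMF f z = D (f : ℍ → ℂ) z - (k : ℂ) * 12⁻¹ * E2 z * f z := rfl

/-- A level one modular form tends to its zeroth `q`-expansion coefficient at infinity. -/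
theorem levelOne_tendsto_atImInfty (f : ModularForm 𝒮ℒ k) :
    Tendsto (f : ℍ → ℂ) atImInfty (𝓝 ((qExpansion 1 f).coeff 0)) := by
  have han : AnalyticAt ℂ (cuspFunction 1 (f : ℍ → ℂ)) 0 :=
    analyticAt_cuspFunction_zero one_pos (levelOne_periodic f) (ModularFormClass.holo f)
      (levelOne_isBoundedAtImInfty f)
  have hq : Tendsto (fun τ : ℍ => 𝕢 1 τ) atImInfty (𝓝 0) := qParam_tendsto_atImInfty one_pos
  have h1 := han.continuousAt.tendsto.comp hq
  have h0 : (qExpansion 1 (f : ℍ → ℂ)).coeff 0 = cuspFunction 1 (f : ℍ → ℂ) 0 := by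
    simp [qExpansion_coeff]
  rw [h0]
  refine h1.congr fun τ => ?_
  simpa using eq_cuspFunction τ one_ne_zero (levelOne_periodic f)

end Fermat.Agent.S24.JFun
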