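import Mathlib
import Fermat.Agent.S24.JFun.NormDeriv
import Fermat.Agent.S24.JFun.SerreMF
import Fermat.Agent.S24.JFun.AtInfty

/-!
Ramanujan's identities for `E₄`, `E₆` and the discriminant.
-/

set_option autoImplicit false

open UpperHalfPlane hiding I
open Complex Filter Function Topology ModularForm EisensteinSeries
open SlashInvariantForm SlashInvariantFormClass ModularFormClass
open scoped Real Manifold MatrixGroups

namespace Fermat.Agent.S24.JFun

open Derivative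

local notation "𝕢" => Periodic.qParam
local notation "Δ" => ModularForm.discriminant

theorem E2_tendsto_atImInfty : Tendsto E2 atImInfty (𝓝 1) := by
  have h := tendsto_atImInfty_of_hasSum (f := E2)
    (c := fun m : ℕ => (if m = 0 then 1 else -24 * (ArithmeticFunction.sigma 1 m : ℂ) : ℂ))
    E2_mdifferentiable (fun τ => by
      simpa only [Function.Periodic.qParam, ofReal_one, div_one] using
        hasSum_qExpansion_E2 (z := τ))
  simpa using h

theorem E₄_tendsto_atImInfty : Tendsto (E₄ : ℍ → ℂ) atImInfty (𝓝 1) := by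
  have h := levelOne_tendsto_atImInfty E₄
  rwa [E_qExpansion_coeff_zero _ ⟨2, rfl⟩] at h

theorem E₆_tendsto_atImInfty : Tendsto (E₆ : ℍ → ℂ) atImInfty (𝓝 1) := by
  have h := levelOne_tendsto_atImInfty E₆
  rwa [E_qExpansion_coeff_zero _ ⟨3, rfl⟩] at h

theorem serreMF_tendsto_atImInfty {k : ℤ} (f : ModularForm 𝒮ℒ k) {a : ℂ}
    (hf : Tendsto (f : ℍ → ℂ) atImInfty (𝓝 a)) :
    Tendsto (serreMF f : ℍ → ℂ) atImInfty (𝓝 (-((k : ℂ) * 12⁻¹ * a))) := by
  have h1 : Tendsto (D (f : ℍ → ℂ)) atImInfty (𝓝 0) :=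
    normalizedDeriv_isZeroAtImInfty (levelOne_periodic f) (ModularFormClass.holo f)
      (levelOne_isBoundedAtImInfty f)
  have h2 : Tendsto (fun z : ℍ => (k : ℂ) * 12⁻¹ * E2 z * f z) atImInfty
      (𝓝 ((k : ℂ) * 12⁻¹ * 1 * a)) :=
    ((tendsto_const_nhds.mul E2_tendsto_atImInfty).mul hf)
  have h3 := h1.sub h2
  simp only [zero_sub, mul_one] at h3
  exact h3.congr fun z => (serreMF_apply f z).symm

/-- Ramanujan's identity `D E₄ = (E₂ E₄ - E₆) / 3` in Serre derivative form. -/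
theorem serreMF_E₄ (z : ℍ) : serreMF E₄ z = -(1 / 3 : ℂ) * E₆ z := by
  let g : ModularForm 𝒮ℒ 6 := ModularForm.mcast (by norm_num) (serreMF E₄)
  obtain ⟨c, hc⟩ : ∃ c : ℂ, c • E₆ = g :=
    (finrank_eq_one_iff_of_nonzero' E₆ (E_ne_zero _ ⟨3, rfl⟩)).mp
      (Module.rank_eq_one_iff_finrank_eq_one.mp levelOne_weight_six_rank_one) _
  have hfun : ∀ w : ℍ, c * E₆ w = serreMF E₄ w := fun w => by
    have := congrArg (fun F : ModularForm 𝒮ℒ 6 => F w) hc
    simpa [g] using this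
  have hlim1 : Tendsto (fun w : ℍ => c * E₆ w) atImInfty (𝓝 (c * 1)) :=
    tendsto_const_nhds.mul E₆_tendsto_atImInfty
  have hlim2 := serreMF_tendsto_atImInfty E₄ E₄_tendsto_atImInfty
  have hlim1' : Tendsto (serreMF E₄ : ℍ → ℂ) atImInfty (𝓝 (c * 1)) :=
    hlim1.congr hfun
  have hc' : c * 1 = -(((4 : ℕ) : ℤ) * 12⁻¹ * 1 : ℂ) := tendsto_nhds_unique hlim1' hlim2
  rw [← hfun z]
  have : c = -(1 / 3 : ℂ) := by
    rw [mul_one] at hc'
    rw [hc']
    norm_num
  rw [this]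

/-- Ramanujan's identity `D E₆ = (E₂ E₆ - E₄²) / 2` in Serre derivative form. -/
theorem serreMF_E₆ (z : ℍ) : serreMF E₆ z = -(1 / 2 : ℂ) * E₄ z ^ 2 := by
  let g : ModularForm 𝒮ℒ ((8 : ℕ) : ℤ) := ModularForm.mcast (by norm_num) (serreMF E₆)
  let e : ModularForm 𝒮ℒ ((8 : ℕ) : ℤ) := ModularForm.mcast (by norm_num) (E₄.mul E₄)
  have he : ∀ w : ℍ, e w = E₄ w ^ 2 := fun w => by
    rw [pow_two]; rfl
  have hrank : Module.rank ℂ (ModularForm 𝒮ℒ ((8 : ℕ) : ℤ)) = 1 := by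
    rw [dimension_level_one 8 ⟨4, rfl⟩]
    simp [Nat.ModEq]
  have hlim_e : Tendsto (e : ℍ → ℂ) atImInfty (𝓝 (1 ^ 2)) :=
    (E₄_tendsto_atImInfty.pow 2).congr fun w => (he w).symm
  have he0 : e ≠ 0 := by
    intro h0
    have : Tendsto (e : ℍ → ℂ) atImInfty (𝓝 0) := by
      rw [h0]; exact tendsto_const_nhds
    have := tendsto_nhds_unique hlim_e this
    norm_num at this
  obtain ⟨c, hc⟩ : ∃ c : ℂ, c • e = g :=
    (finrank_eq_one_iff_of_nonzero' e he0).mp
      (Module.rank_eq_one_iff_finrank_eq_one.mp hrank) _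
  have hfun : ∀ w : ℍ, c * E₄ w ^ 2 = serreMF E₆ w := fun w => by
    have := congrArg (fun F : ModularForm 𝒮ℒ ((8 : ℕ) : ℤ) => F w) hc
    simp only [smul_apply, smul_eq_mul] at this
    rw [he w] at this
    simpa [g] using this
  have hlim1 : Tendsto (fun w : ℍ => c * E₄ w ^ 2) atImInfty (𝓝 (c * 1 ^ 2)) :=
    tendsto_const_nhds.mul (E₄_tendsto_atImInfty.pow 2)
  have hlim2 := serreMF_tendsto_atImInfty E₆ E₆_tendsto_atImInfty
  have hlim1' : Tendsto (serreMF E₆ : ℍ → ℂ) atImInfty (𝓝 (c * 1 ^ 2)) :=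
    hlim1.congr hfun
  have hc' : c * 1 ^ 2 = -(((6 : ℕ) : ℤ) * 12⁻¹ * 1 : ℂ) := tendsto_nhds_unique hlim1' hlim2
  rw [← hfun z]
  have : c = -(1 / 2 : ℂ) := by
    rw [one_pow, mul_one] at hc'
    rw [hc']
    norm_num
  rw [this]

theorem D_E₄ (z : ℍ) : D (E₄ : ℍ → ℂ) z = (E2 z * E₄ z - E₆ z) / 3 := by
  have h := serreMF_E₄ z
  rw [serreMF_apply] at h
  push_cast at h
  linear_combination h

theorem D_E₆ (z : ℍ) : D (E₆ : ℍ → ℂ) z = (E2 z * E₆ z - E₄ z ^ 2) / 2 := by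
  have h := serreMF_E₆ z
  rw [serreMF_apply] at h
  push_cast at h
  linear_combination h

end Fermat.Agent.S24.JFun

namespace Fermat.Agent.S24.JFun

open Derivative

local notation "Δ" => ModularForm.discriminant

/-- `D Δ = E₂ Δ`. -/
theorem D_discriminant (z : ℍ) : D Δ z = E2 z * Δ z := by
  have hz : (z : ℂ) ∈ upperHalfPlaneSet := z.2
  have hη : DifferentiableAt ℂ η (z : ℂ) := differentiableAt_eta_of_mem_upperHalfPlaneSet hz
  have hη0 : η (z : ℂ) ≠ 0 := eta_ne_zero hz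
  have hlog := logDeriv_eta_eq_E2 z
  rw [logDeriv_apply] at hlog
  have hderiv : deriv η (z : ℂ) = (π * I / 12) * E2 z * η z := by
    field_simp at hlog ⊢
    linear_combination hlog
  have heq : (Δ ∘ ofComplex) =ᶠ[𝓝 (z : ℂ)] fun w => η w ^ 24 := by
    filter_upwards [isOpen_upperHalfPlaneSet.mem_nhds hz] with w hw
    simp [ModularForm.discriminant, ofComplex_apply_of_im_pos hw]
  have hd : deriv (Δ ∘ ofComplex) (z : ℂ) = 24 * η z ^ 23 * deriv η z := by
    rw [heq.deriv_eq]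
    have := (hη.hasDerivAt.pow 24).deriv
    have h2 : (fun w => η w ^ 24) = η ^ 24 := rfl
    rw [h2]
    simpa using this
  rw [normalizedDerivOfComplex, hd, hderiv]
  simp only [ModularForm.discriminant]
  have : (2 * π * I : ℂ) ≠ 0 := two_pi_I_ne_zero
  field_simp
  ring

end Fermat.Agent.S24.JFun
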