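import Mathlib
import Fermat.Agent.S24.JDef
import Fermat.Agent.S24.JFun.Ramanujan

/-!
The analytic `j`-function `j = E₄³ / Δ` on the upper half plane: holomorphy, invariance,
`j - 1728 = E₆² / Δ`, and the derivative formula `D j = - E₄² E₆ / Δ`.
-/

set_option autoImplicit false

open UpperHalfPlane hiding I
open Complex Filter Function Topology ModularForm EisensteinSeries
open SlashInvariantForm SlashInvariantFormClass ModularFormClass
open scoped Real Manifold MatrixGroups

namespace Fermat.Agent.S24.JFun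

open Derivative

local notation "Δ" => ModularForm.discriminant

theorem discriminant_mdifferentiable : MDiff Δ := CuspForm.discriminant.holo'

theorem jFn_sub_1728 (z : ℍ) : jFn z - 1728 = E₆ z ^ 2 / Δ z := by
  have hΔ := discriminant_ne_zero z
  have h := discriminant_eq_E₄_cube_sub_E₆_sq z
  rw [jFn]
  field_simp
  linear_combination (-1728 : ℂ) * h

theorem jFn_eq_zero_iff (z : ℍ) : jFn z = 0 ↔ E₄ z = 0 := by
  rw [jFn, div_eq_zero_iff]
  simp [discriminant_ne_zero z]

theorem jFn_eq_1728_iff (z : ℍ) : jFn z = 1728 ↔ E₆ z = 0 := by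
  rw [← sub_eq_zero, jFn_sub_1728, div_eq_zero_iff]
  simp [discriminant_ne_zero z]

/-- `E₄` and `E₆` have no common zero. -/
theorem E₄_E₆_not_both_zero (z : ℍ) : ¬ (E₄ z = 0 ∧ E₆ z = 0) := by
  rintro ⟨h4, h6⟩
  have h := discriminant_eq_E₄_cube_sub_E₆_sq z
  rw [h4, h6] at h
  exact discriminant_ne_zero z (by simpa using h)

/-- The derivative of `j`: `D j = - E₄² E₆ / Δ`. -/
theorem D_jFn (z : ℍ) : D jFn z = -(E₄ z ^ 2 * E₆ z) / Δ z := by
  have hΔ := discriminant_ne_zero z
  have hprod : (jFn * Δ : ℍ → ℂ) = (E₄ : ℍ → ℂ) ^ 3 := by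
    funext w; exact jFn_mul_discriminant w
  have h1 := congrFun (normalizedDerivOfComplex_mul jFn Δ jFn_mdiff
    discriminant_mdifferentiable) z
  have h2 := congrFun (normalizedDerivOfComplex_pow (E₄ : ℍ → ℂ) 3 (ModularFormClass.holo E₄)) z
  rw [hprod] at h1
  rw [h1] at h2
  simp only [Pi.add_apply, Pi.mul_apply, Pi.pow_apply, D_discriminant, D_E₄] at h2
  have h33 : ((3 : ℕ) : ℍ → ℂ) z = 3 := rfl
  rw [h33] at h2
  have hj := jFn_mul_discriminant z
  field_simp
  have h3 : D jFn z * Δ z = 3 * E₄ z ^ 2 * ((E2 z * E₄ z - E₆ z) / 3) - jFn z * (E2 z * Δ z) := by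
    push_cast at h2
    linear_combination h2
  rw [h3]
  linear_combination (-E2 z) * hj

theorem D_jFn_eq_zero_iff (z : ℍ) : D jFn z = 0 ↔ jFn z = 0 ∨ jFn z = 1728 := by
  rw [D_jFn, div_eq_zero_iff, jFn_eq_zero_iff, jFn_eq_1728_iff]
  simp [discriminant_ne_zero z]

end Fermat.Agent.S24.JFun
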