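import Mathlib
import Fermat.Agent.S24.JDef
import Fermat.Agent.S24.LocalOrder
import Fermat.Agent.S24.JFun.Basic

/-!
Values of `j` at the elliptic points: `j = 1728` at fixed points of `S` and `j = 0` at fixed
points of `S * T`.
-/

set_option autoImplicit false

open UpperHalfPlane hiding I
open Complex Filter Function Topology ModularForm EisensteinSeries
open SlashInvariantForm SlashInvariantFormClass ModularFormClass
open scoped Real Manifold MatrixGroups

namespace Fermat.Agent.S24.JFun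

local notation "Δ" => ModularForm.discriminant

/-- A level one modular form satisfies `f τ = (c τ + d) ^ k * f τ` at a fixed point. -/
theorem levelOne_eq_denom_pow_mul_of_fixed {k : ℕ} (f : ModularForm 𝒮ℒ k) (γ : SL(2, ℤ)) (τ : ℍ)
    (hfix : γ • τ = τ) : f τ = denom γ τ ^ k * f τ := by
  have hγ : (γ : GL (Fin 2) ℝ) ∈ 𝒮ℒ := ⟨γ, rfl⟩
  have h := SlashInvariantForm.slash_action_eqn'' f hγ τ
  rw [zpow_natCast] at h
  have hfix' : (γ : GL (Fin 2) ℝ) • τ = τ := hfix
  rw [hfix'] at h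
  exact h

/-- `E₆` vanishes at the fixed point of an element of trace zero. -/
theorem E₆_eq_zero_of_fixed_of_trace_zero (γ : SL(2, ℤ)) (τ : ℍ) (hfix : γ • τ = τ)
    (htr : γ 0 0 + γ 1 1 = 0) : E₆ τ = 0 := by
  have h := levelOne_eq_denom_pow_mul_of_fixed E₆ γ τ hfix
  have hw := LocalOrder.denom_sq_of_fixed γ τ hfix
  rw [htr, Int.cast_zero, zero_mul, zero_sub] at hw
  generalize denom γ τ = w at h hw
  have h6 : w ^ 6 = -1 := by
    have : w ^ 6 = (w ^ 2) ^ 3 := by ring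
    rw [this, hw]; norm_num
  rw [h6] at h
  have : (2 : ℂ) * E₆ τ = 0 := by linear_combination h
  simpa using this

/-- `E₄` vanishes at the fixed point of an element of trace one. -/
theorem E₄_eq_zero_of_fixed_of_trace_one (γ : SL(2, ℤ)) (τ : ℍ) (hfix : γ • τ = τ)
    (htr : γ 0 0 + γ 1 1 = 1) : E₄ τ = 0 := by
  have h := levelOne_eq_denom_pow_mul_of_fixed E₄ γ τ hfix
  have hw := LocalOrder.denom_sq_of_fixed γ τ hfix
  rw [htr, Int.cast_one, one_mul] at hw
  generalize denom γ τ = w at h hw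
  have h4 : w ^ 4 = -w := by
    have : w ^ 4 = (w ^ 2) ^ 2 := by ring
    rw [this, hw]
    linear_combination hw
  rw [h4] at h
  have h1 : (1 + w) * E₄ τ = 0 := by linear_combination h
  rcases mul_eq_zero.mp h1 with h0 | h0
  · exfalso
    have hw1 : w = -1 := by linear_combination h0
    rw [hw1] at hw
    norm_num at hw
  · exact h0

theorem E₆_eq_zero_of_S_fixed (τ : ℍ) (hfix : ModularGroup.S • τ = τ) : E₆ τ = 0 :=
  E₆_eq_zero_of_fixed_of_trace_zero ModularGroup.S τ hfix (by decide)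

theorem jFn_eq_1728_of_S_fixed (τ : ℍ) (hfix : ModularGroup.S • τ = τ) : jFn τ = 1728 :=
  (jFn_eq_1728_iff τ).mpr (E₆_eq_zero_of_S_fixed τ hfix)

theorem E₄_eq_zero_of_ST_fixed (τ : ℍ) (hfix : (ModularGroup.S * ModularGroup.T) • τ = τ) :
    E₄ τ = 0 :=
  E₄_eq_zero_of_fixed_of_trace_one (ModularGroup.S * ModularGroup.T) τ hfix (by decide)

theorem jFn_eq_zero_of_ST_fixed (τ : ℍ) (hfix : (ModularGroup.S * ModularGroup.T) • τ = τ) :
    jFn τ = 0 :=
  (jFn_eq_zero_iff τ).mpr (E₄_eq_zero_of_ST_fixed τ hfix)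

theorem S_smul_I : ModularGroup.S • UpperHalfPlane.I = UpperHalfPlane.I := by
  rw [UpperHalfPlane.modular_S_smul]
  ext
  simp

theorem jFn_I : jFn UpperHalfPlane.I = 1728 := jFn_eq_1728_of_S_fixed _ S_smul_I

/-- The elliptic point `ρ = (-1 + √3 i) / 2`. -/
noncomputable def rho : ℍ := ⟨⟨-1 / 2, Real.sqrt 3 / 2⟩, by
  show (0 : ℝ) < Real.sqrt 3 / 2
  positivity⟩

theorem rho_coe : (rho : ℂ) = ⟨-1 / 2, Real.sqrt 3 / 2⟩ := rfl

theorem rho_sq_add : (rho : ℂ) ^ 2 + (rho : ℂ) + 1 = 0 := by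
  have h3 : Real.sqrt 3 * Real.sqrt 3 = 3 := Real.mul_self_sqrt (by norm_num)
  rw [rho_coe]
  apply Complex.ext
  · simp [pow_two]
    nlinarith [h3]
  · simp [pow_two]
    ring

theorem ST_smul_rho : (ModularGroup.S * ModularGroup.T) • rho = rho := by
  rw [mul_smul, UpperHalfPlane.modular_T_smul, UpperHalfPlane.modular_S_smul]
  apply UpperHalfPlane.ext
  have h := rho_sq_add
  have hne : (1 : ℂ) + (rho : ℂ) ≠ 0 := by
    have := UpperHalfPlane.ne_zero ((1 : ℝ) +ᵥ rho : ℍ)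
    rw [UpperHalfPlane.coe_vadd] at this
    push_cast at this
    exact this
  show (-(((1 : ℝ) +ᵥ rho : ℍ) : ℂ))⁻¹ = (rho : ℂ)
  rw [UpperHalfPlane.coe_vadd]
  push_cast
  rw [inv_eq_iff_eq_inv]
  have hr : (rho : ℂ) ≠ 0 := UpperHalfPlane.ne_zero rho
  field_simp
  linear_combination -h

theorem jFn_rho : jFn rho = 0 := jFn_eq_zero_of_ST_fixed _ ST_smul_rho

end Fermat.Agent.S24.JFun
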