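import Mathlib
import Fermat.Agent.S24.JDef
import Fermat.Agent.S24.JFun.Basic

/-!
Local orders of the analytic `j`-function: the order of vanishing of `j - j(z₀)` at `z₀` is
`3` if `j(z₀) = 0`, `2` if `j(z₀) = 1728` and `1` otherwise.
-/

set_option autoImplicit false

open UpperHalfPlane hiding I
open Complex Filter Function Topology ModularForm EisensteinSeries
open SlashInvariantForm SlashInvariantFormClass ModularFormClass
open scoped Real Manifold MatrixGroups

namespace Fermat.Agent.S24.JFun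

open Derivative

local notation "Δ" => ModularForm.discriminant

theorem analyticAt_comp_ofComplex {f : ℍ → ℂ} (hf : MDiff f) (z : ℍ) :
    AnalyticAt ℂ (f ∘ ofComplex) (z : ℂ) := by
  rw [UpperHalfPlane.mdifferentiable_iff] at hf
  exact hf.analyticAt (isOpen_upperHalfPlaneSet.mem_nhds z.2)

theorem deriv_comp_ofComplex_eq_D (f : ℍ → ℂ) (z : ℍ) :
    deriv (f ∘ ofComplex) (z : ℂ) = 2 * π * I * D f z := by
  rw [normalizedDerivOfComplex]
  have : (2 * π * I : ℂ) ≠ 0 := two_pi_I_ne_zero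
  field_simp

theorem comp_ofComplex_apply (f : ℍ → ℂ) (z : ℍ) : (f ∘ ofComplex) (z : ℂ) = f z := by
  simp [ofComplex_apply]

/-- A zero of a holomorphic function on the upper half plane with nonvanishing normalized
derivative has order one. -/
theorem analyticOrderAt_eq_one_of_D_ne_zero {f : ℍ → ℂ} (hf : MDiff f) (z : ℍ) (h0 : f z = 0)
    (hD : D f z ≠ 0) : analyticOrderAt (f ∘ ofComplex) (z : ℂ) = 1 := by
  refine (analyticAt_comp_ofComplex hf z).analyticOrderAt_eq_one_of_zero_deriv_ne_zero ?_ ?_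
  · rw [comp_ofComplex_apply, h0]
  · rw [deriv_comp_ofComplex_eq_D]
    exact mul_ne_zero two_pi_I_ne_zero hD

theorem analyticOrderAt_eq_zero_of_ne_zero {f : ℍ → ℂ} (hf : MDiff f) (z : ℍ) (h0 : f z ≠ 0) :
    analyticOrderAt (f ∘ ofComplex) (z : ℂ) = 0 := by
  rw [(analyticAt_comp_ofComplex hf z).analyticOrderAt_eq_zero, comp_ofComplex_apply]
  exact h0

/-- `E₄` has only simple zeros. -/
theorem analyticOrderAt_E₄ (z : ℍ) (h : E₄ z = 0) :
    analyticOrderAt ((E₄ : ℍ → ℂ) ∘ ofComplex) (z : ℂ) = 1 := by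
  refine analyticOrderAt_eq_one_of_D_ne_zero (ModularFormClass.holo E₄) z h ?_
  rw [D_E₄, h]
  have h6 : E₆ z ≠ 0 := fun h6 => E₄_E₆_not_both_zero z ⟨h, h6⟩
  simp [h6]

/-- `E₆` has only simple zeros. -/
theorem analyticOrderAt_E₆ (z : ℍ) (h : E₆ z = 0) :
    analyticOrderAt ((E₆ : ℍ → ℂ) ∘ ofComplex) (z : ℂ) = 1 := by
  refine analyticOrderAt_eq_one_of_D_ne_zero (ModularFormClass.holo E₆) z h ?_
  rw [D_E₆, h]
  have h4 : E₄ z ≠ 0 := fun h4 => E₄_E₆_not_both_zero z ⟨h4, h⟩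
  simp [h4]

/-- The inverse of the discriminant, as a holomorphic function. -/
theorem inv_discriminant_mdifferentiable : MDiff (fun z : ℍ => (Δ z)⁻¹) := by
  have h1 : MDiff (fun _ : ℍ => (1 : ℂ)) := mdifferentiable_const
  have h2 := h1.div discriminant_mdifferentiable discriminant_ne_zero
  have h3 : ((fun _ : ℍ => (1 : ℂ)) / Δ) = fun z => (Δ z)⁻¹ := by
    funext z
    simp
  rw [h3] at h2
  exact h2

/-- If `j(z₀) = 0` then `j` vanishes to order `3` at `z₀`. -/
theorem analyticOrderAt_jFn_of_eq_zero (z : ℍ) (h : jFn z = 0) :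
    analyticOrderAt (jFn ∘ ofComplex) (z : ℂ) = 3 := by
  have h4 : E₄ z = 0 := (jFn_eq_zero_iff z).mp h
  have hA : AnalyticAt ℂ ((E₄ : ℍ → ℂ) ∘ ofComplex) (z : ℂ) :=
    analyticAt_comp_ofComplex (ModularFormClass.holo E₄) z
  have hB : AnalyticAt ℂ ((fun w : ℍ => (Δ w)⁻¹) ∘ ofComplex) (z : ℂ) :=
    analyticAt_comp_ofComplex inv_discriminant_mdifferentiable z
  have heq : jFn ∘ ofComplex =
      ((E₄ : ℍ → ℂ) ∘ ofComplex) ^ 3 * ((fun w : ℍ => (Δ w)⁻¹) ∘ ofComplex) := by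
    funext w
    simp [jFn, div_eq_mul_inv]
  rw [heq, analyticOrderAt_mul (hA.pow 3) hB, analyticOrderAt_pow hA, analyticOrderAt_E₄ z h4,
    analyticOrderAt_eq_zero_of_ne_zero inv_discriminant_mdifferentiable z
      (inv_ne_zero (discriminant_ne_zero z))]
  rfl

/-- If `j(z₀) = 1728` then `j - 1728` vanishes to order `2` at `z₀`. -/
theorem analyticOrderAt_jFn_of_eq_1728 (z : ℍ) (h : jFn z = 1728) :
    analyticOrderAt ((fun w : ℍ => jFn w - 1728) ∘ ofComplex) (z : ℂ) = 2 := by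
  have h6 : E₆ z = 0 := (jFn_eq_1728_iff z).mp h
  have hA : AnalyticAt ℂ ((E₆ : ℍ → ℂ) ∘ ofComplex) (z : ℂ) :=
    analyticAt_comp_ofComplex (ModularFormClass.holo E₆) z
  have hB : AnalyticAt ℂ ((fun w : ℍ => (Δ w)⁻¹) ∘ ofComplex) (z : ℂ) :=
    analyticAt_comp_ofComplex inv_discriminant_mdifferentiable z
  have heq : (fun w : ℍ => jFn w - 1728) ∘ ofComplex =
      ((E₆ : ℍ → ℂ) ∘ ofComplex) ^ 2 * ((fun w : ℍ => (Δ w)⁻¹) ∘ ofComplex) := by
    funext w
    simp [jFn_sub_1728, div_eq_mul_inv]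
  rw [heq, analyticOrderAt_mul (hA.pow 2) hB, analyticOrderAt_pow hA, analyticOrderAt_E₆ z h6,
    analyticOrderAt_eq_zero_of_ne_zero inv_discriminant_mdifferentiable z
      (inv_ne_zero (discriminant_ne_zero z))]
  rfl

/-- If `j(z₀) ∉ {0, 1728}` then `j - j(z₀)` vanishes to order `1` at `z₀`. -/
theorem analyticOrderAt_jFn_of_ne (z : ℍ) (h0 : jFn z ≠ 0) (h1 : jFn z ≠ 1728) :
    analyticOrderAt ((fun w : ℍ => jFn w - jFn z) ∘ ofComplex) (z : ℂ) = 1 := by
  have hmd : MDiff (fun w : ℍ => jFn w - jFn z) := jFn_mdiff.sub mdifferentiable_const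
  refine analyticOrderAt_eq_one_of_D_ne_zero hmd z (sub_self _) ?_
  have hD : D (fun w : ℍ => jFn w - jFn z) = D jFn := by
    have := normalizedDerivOfComplex_sub jFn (fun _ => jFn z) jFn_mdiff mdifferentiable_const
    rw [normalizedDerivOfComplex_const, sub_zero] at this
    exact this
  rw [hD]
  intro hz
  rcases (D_jFn_eq_zero_iff z).mp hz with h | h
  · exact h0 h
  · exact h1 h

/-- The order of vanishing of `j - j(z₀)` at `z₀`. -/
theorem analyticOrderAt_jFn_sub (z : ℍ) :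
    analyticOrderAt ((fun w : ℍ => jFn w - jFn z) ∘ ofComplex) (z : ℂ) =
      if jFn z = 0 then 3 else if jFn z = 1728 then 2 else 1 := by
  split_ifs with h0 h1
  · have : (fun w : ℍ => jFn w - jFn z) = jFn := by
      funext w; rw [h0, sub_zero]
    rw [this]
    exact analyticOrderAt_jFn_of_eq_zero z h0
  · rw [h1]
    exact analyticOrderAt_jFn_of_eq_1728 z h1
  · exact analyticOrderAt_jFn_of_ne z h0 h1

end Fermat.Agent.S24.JFun
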