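import Mathlib
import Fermat.Agent.S24.JDef
import Fermat.Agent.S24.JFun.Basic

/-!
The analytic `j`-function is surjective onto `ℂ`: if `E₄³ - a Δ` had no zero, its inverse
would be a nonzero level one modular form of weight `-12`.
-/

set_option autoImplicit false

open UpperHalfPlane hiding I
open Complex Filter Function Topology ModularForm EisensteinSeries
open SlashInvariantForm SlashInvariantFormClass ModularFormClass
open scoped Real Manifold MatrixGroups

namespace Fermat.Agent.S24.JFun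

local notation "Δ" => ModularForm.discriminant

/-- The function `E₄³ - a Δ`. -/
noncomputable def cubeSub (a : ℂ) (z : ℍ) : ℂ := E₄ z ^ 3 - a * Δ z

theorem cubeSub_eq_zero_iff (a : ℂ) (z : ℍ) : cubeSub a z = 0 ↔ jFn z = a := by
  have hΔ := discriminant_ne_zero z
  rw [cubeSub, jFn, div_eq_iff hΔ, sub_eq_zero]

theorem cubeSub_mdifferentiable (a : ℂ) : MDiff (cubeSub a) := by
  have h1 : MDiff (fun z : ℍ => E₄ z ^ 3) := (ModularFormClass.holo E₄).pow 3
  have h2 : MDiff (fun z : ℍ => a * Δ z) := mdifferentiable_const.mul discriminant_mdifferentiable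
  exact h1.sub h2

theorem cubeSub_smul (a : ℂ) (γ : SL(2, ℤ)) (z : ℍ) :
    cubeSub a (γ • z) = denom γ z ^ 12 * cubeSub a z := by
  have hγ : (γ : GL (Fin 2) ℝ) ∈ 𝒮ℒ := ⟨γ, rfl⟩
  have h4 : E₄ (γ • z) = (denom γ z) ^ (4 : ℤ) * E₄ z :=
    SlashInvariantForm.slash_action_eqn'' E₄ hγ z
  have h12' : CuspForm.discriminant (γ • z) = (denom γ z) ^ (12 : ℤ) * CuspForm.discriminant z :=
    SlashInvariantForm.slash_action_eqn'' CuspForm.discriminant hγ z
  have h12 : Δ (γ • z) = (denom γ z) ^ (12 : ℤ) * Δ z := h12'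
  rw [cubeSub, cubeSub, h4, h12, zpow_ofNat, zpow_ofNat]
  ring

theorem discriminant_tendsto_atImInfty : Tendsto Δ atImInfty (𝓝 0) :=
  discriminant_isZeroAtImInfty

theorem cubeSub_tendsto_atImInfty (a : ℂ) : Tendsto (cubeSub a) atImInfty (𝓝 1) := by
  have h1 : Tendsto (fun z : ℍ => E₄ z ^ 3) atImInfty (𝓝 (1 ^ 3)) := E₄_tendsto_atImInfty.pow 3
  have h2 : Tendsto (fun z : ℍ => a * Δ z) atImInfty (𝓝 (a * 0)) :=
    tendsto_const_nhds.mul discriminant_tendsto_atImInfty
  have h3 := h1.sub h2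
  simp only [one_pow, mul_zero, sub_zero] at h3
  exact h3

/-- If `E₄³ - a Δ` has no zero, its inverse is a level one modular form of weight `-12`. -/
noncomputable def invCubeSub (a : ℂ) (h : ∀ z, cubeSub a z ≠ 0) : ModularForm 𝒮ℒ (-12) where
  toFun z := (cubeSub a z)⁻¹
  slash_action_eq' := fun _ ⟨γ, hγ⟩ => hγ ▸ by
    funext z
    have hd : denom γ z ≠ 0 := denom_ne_zero γ z
    show ((fun z => (cubeSub a z)⁻¹) ∣[(-12 : ℤ)] γ) z = (cubeSub a z)⁻¹
    rw [SL_slash_apply, cubeSub_smul, neg_neg, zpow_ofNat]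
    have := h z
    field_simp
  holo' := by
    have h1 : MDiff (fun _ : ℍ => (1 : ℂ)) := mdifferentiable_const
    have h2 := h1.div (cubeSub_mdifferentiable a) h
    have h3 : ((fun _ : ℍ => (1 : ℂ)) / cubeSub a) = fun z => (cubeSub a z)⁻¹ := by
      funext z
      simp
    rw [h3] at h2
    exact h2
  bdd_at_cusps' {c} hc := by
    rw [Subgroup.IsArithmetic.isCusp_iff_isCusp_SL2Z] at hc
    rw [OnePoint.isBoundedAt_iff_forall_SL2Z hc]
    intro γ _
    have hinv : (fun z : ℍ => (cubeSub a z)⁻¹) ∣[(-12 : ℤ)] γ = fun z : ℍ => (cubeSub a z)⁻¹ := by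
      funext z
      have hd : denom γ z ≠ 0 := denom_ne_zero γ z
      rw [SL_slash_apply, cubeSub_smul, neg_neg, zpow_ofNat]
      have := h z
      field_simp
    show IsBoundedAtImInfty ((fun z : ℍ => (cubeSub a z)⁻¹) ∣[(-12 : ℤ)] γ)
    rw [hinv]
    have ht : Tendsto (fun z : ℍ => (cubeSub a z)⁻¹) atImInfty (𝓝 (1 : ℂ)⁻¹) :=
      (cubeSub_tendsto_atImInfty a).inv₀ one_ne_zero
    exact ht.isBigO_one ℝ

/-- The analytic `j`-function is surjective. -/
theorem jFn_surjective : Function.Surjective jFn := by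
  intro a
  by_contra hne
  rw [not_exists] at hne
  have h : ∀ z, cubeSub a z ≠ 0 := fun z hz => hne z ((cubeSub_eq_zero_iff a z).mp hz)
  have h0 : ⇑(invCubeSub a h) = 0 :=
    ModularFormClass.levelOne_neg_weight_eq_zero (by norm_num) (invCubeSub a h)
  have h1 : (invCubeSub a h) UpperHalfPlane.I = 0 := by rw [h0]; rfl
  have h2 : (cubeSub a UpperHalfPlane.I)⁻¹ = 0 := h1
  exact h UpperHalfPlane.I (inv_eq_zero.mp h2)

end Fermat.Agent.S24.JFun
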